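import Fermat.Agent.MUL.Orig.Lib.Kronecker.Formal
import Fermat.Agent.MUL.Orig.F3.Galois.NormDesc
import Fermat.Agent.MUL.S24.EmbFHom
import Fermat.Agent.MUL.Lib.BadRed.Nodal.Gluing.Data

section MergeWrap_Lib_Kronecker_ProdDefs -- from Lib/Kronecker/ProdDefs.lean

set_option autoImplicit false

noncomputable section

namespace Fermat.Agent.Kronecker

open ModularCurve
open scoped MatrixGroups

/-- `ℚ̄`. -/
abbrev Qb : Type := AlgebraicClosure ℚ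

/-- Analytic half of PROD: the `ℓ` "ramified" conjugates of `y(q^ℓ)` over `F_N` and their
expansions at `∞` in the parameter `u = exp(2πiτ/(Nℓ))`. -/
def ConjugateExpansions (N ℓ : ℕ) [NeZero N] [NeZero ℓ] : Prop :=
  ∃ ζ : Qbˣ, IsPrimitiveRoot ζ ℓ ∧
    ∃ γ : ℕ → SL(2, ℤ), (∀ b, γ b ∈ CongruenceSubgroup.Gamma0 N) ∧
      ∀ (b : ℕ), b < ℓ → ∀ y : ↥(modularFunctionFieldBar N),
        Fermat.Agent.S24.EmbFHom.expLL (N * ℓ)
            (γ b • Fermat.Agent.S24.EmbFHom.embHom (N * ℓ) (N * ℓ) dvd_rfl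
              (heckeBetaBar Qb N ℓ y)) =
          qExpand Qb N (scaleL (ζ ^ b) (y : LaurentSeries Qb))

/-- PROD: the `q`-expansion of `T_ℓ y = Norm_{F_{Nℓ}/F_N} (y(q^ℓ))`, after `q ↦ q^ℓ`. -/
def NormProductFormula (N ℓ : ℕ) [NeZero N] [NeZero ℓ] : Prop :=
  ∃ ζ : Qbˣ, IsPrimitiveRoot ζ ℓ ∧
    ∀ y : ↥(modularFunctionFieldBar N),
      qExpand Qb ℓ ((Fermat.Agent.F3G.heckeFun Qb N ℓ y : ↥(modularFunctionFieldBar N)) :
          LaurentSeries Qb) =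
        qExpand Qb (ℓ * ℓ) (y : LaurentSeries Qb) *
          ∏ b ∈ Finset.range ℓ, scaleL (ζ ^ b) (y : LaurentSeries Qb)

end Fermat.Agent.Kronecker
end
end MergeWrap_Lib_Kronecker_ProdDefs
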